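/-
P-SS2 row 1053 SS2-J2 (helper85): the abstract commutation of a transfer (corestriction) with
"Hecke operators" given by rewriting data.

`Γ' → Γ → G` injective, `α`, `β : X → G` finite families with
* `α x * ι γ = ι k * α y`  (Hecke operator `T` of `Γ`),
* `β x * ι (j κ) = ι (j l) * β y`  (Hecke operator `T'` of `Γ'`),
* `β x ∈ ι Γ * α x'`, and `β x₁ * ι γ = ι (j μ) * β x₂` forces `γ ∈ j Γ'`.
Then `cores ∘ T' = T ∘ cores`.
-/
import Fermat.Agent.H85.J2.PushOut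

set_option autoImplicit false

namespace Fermat.Agent.H85.J2

open Fermat.Agent.H63.LR

section abstract

variable {G Γ Γ' X : Type*} [Group G] [Group Γ] [Group Γ'] [Fintype X]
  {A : Type*} [AddCommGroup A]

set_option maxHeartbeats 1000000 in
theorem push_comm_abstract
    (ι : Γ →* G) (hι : Function.Injective ι)
    (j : Γ' →* Γ) (hj : Function.Injective j) [j.range.FiniteIndex] [Fintype (Γ ⧸ j.range)]
    (α β : X → G)
    (hα : ∀ (γ : Γ) (x : X), ∃ (y : X) (k : Γ), α x * ι γ = ι k * α y)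
    (sepα : ∀ (x y : X) (k : Γ), α x = ι k * α y → x = y)
    (hβ : ∀ (κ : Γ') (x : X), ∃ (y : X) (l : Γ'), β x * ι (j κ) = ι (j l) * β y)
    (sepβ : ∀ (x y : X) (l : Γ'), β x = ι (j l) * β y → x = y)
    (hβα : ∀ x, ∃ (u : Γ) (x' : X), β x = ι u * α x')
    (hkey : ∀ (x₁ x₂ : X) (γ : Γ) (μ : Γ'), β x₁ * ι γ = ι (j μ) * β x₂ → γ ∈ j.range)
    (T : (Additive Γ →+ A) → (Additive Γ →+ A))
    (hT : ∀ (φ : Additive Γ →+ A) (γ : Γ) (σ : X → X) (k : X → Γ),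
      (∀ x, α x * ι γ = ι (k x) * α (σ x)) →
        T φ (Additive.ofMul γ) = ∑ x, φ (Additive.ofMul (k x)))
    (T' : (Additive Γ' →+ A) → (Additive Γ' →+ A))
    (hT' : ∀ (ψ : Additive Γ' →+ A) (κ : Γ') (τ : X → X) (l : X → Γ'),
      (∀ x, β x * ι (j κ) = ι (j (l x)) * β (τ x)) →
        T' ψ (Additive.ofMul κ) = ∑ x, ψ (Additive.ofMul (l x)))
    (ψ : Additive Γ' →+ A) :
    pushHom j A (T' ψ) = T (pushHom j A ψ) := by
  classical
  refine AddMonoidHom.ext fun γ' => ?_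
  obtain ⟨γ, rfl⟩ : ∃ γ, Additive.ofMul γ = γ' := ⟨Additive.toMul γ', rfl⟩
  -- Step 1: the transversal with respect to `γ`
  have h1 : ∀ q : Γ ⧸ j.range, ∃ (q' : Γ ⧸ j.range) (κ : Γ'),
      outRep j q * γ = j κ * outRep j q' := fun q => exists_outRep j (outRep j q * γ)
  choose σ κ hσκ using h1
  have hL1 : pushHom j A (T' ψ) (Additive.ofMul γ) = ∑ q, T' ψ (Additive.ofMul (κ q)) :=
    pushHom_apply_out j hj A (T' ψ) γ σ κ hσκ
  -- Step 2: the Hecke operator of `Γ'` at `κ q`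
  have h2 : ∀ (q : Γ ⧸ j.range) (x : X), ∃ (y : X) (l : Γ'),
      β x * ι (j (κ q)) = ι (j l) * β y := fun q x => hβ (κ q) x
  choose τ lam hτl using h2
  have hL2 : ∀ q, T' ψ (Additive.ofMul (κ q)) = ∑ x, ψ (Additive.ofMul (lam q x)) :=
    fun q => hT' ψ (κ q) (τ q) (lam q) (hτl q)
  -- Step 3: the Hecke operator of `Γ` at `γ`
  have h3 : ∀ x : X, ∃ (y : X) (k : Γ), α x * ι γ = ι k * α y := hα γ
  choose σ' k hσ'k using h3
  have hR1 : T (pushHom j A ψ) (Additive.ofMul γ) =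
      ∑ x, pushHom j A ψ (Additive.ofMul (k x)) := hT _ γ σ' k hσ'k
  -- Step 4: the transversal with respect to `k x`
  have h4 : ∀ (x : X) (q : Γ ⧸ j.range), ∃ (q' : Γ ⧸ j.range) (μ : Γ'),
      outRep j q * k x = j μ * outRep j q' := fun x q => exists_outRep j (outRep j q * k x)
  choose τ' μ hτ'μ using h4
  have hR2 : ∀ x, pushHom j A ψ (Additive.ofMul (k x)) = ∑ q, ψ (Additive.ofMul (μ x q)) :=
    fun x => pushHom_apply_out j hj A ψ (k x) (τ' x) (μ x) (hτ'μ x)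
  -- Step 5: comparison of the two product families
  have h5 : ∀ (x : X) (q : Γ ⧸ j.range), ∃ (x' : X) (q' : Γ ⧸ j.range) (n : Γ'),
      β x * ι (outRep j q) = ι (j n) * ι (outRep j q') * α x' := by
    intro x q
    obtain ⟨u, x₀, hu⟩ := hβα x
    obtain ⟨x', k', hk'⟩ := hα (outRep j q) x₀
    obtain ⟨q', n, hn⟩ := exists_outRep j (u * k')
    refine ⟨x', q', n, ?_⟩
    rw [hu, mul_assoc, hk', ← mul_assoc, ← map_mul, hn, map_mul]
  choose Ψ₁ Ψ₂ ν hΨ using h5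
  -- uniqueness of the decomposition `ι (j a) * ι (g q) * α x`
  have huniq : ∀ (a b : Γ') (q₁ q₂ : Γ ⧸ j.range) (x₁ x₂ : X),
      ι (j a) * ι (outRep j q₁) * α x₁ = ι (j b) * ι (outRep j q₂) * α x₂ →
      x₁ = x₂ ∧ q₁ = q₂ ∧ a = b := by
    intro a b q₁ q₂ x₁ x₂ h
    have hx : x₁ = x₂ := by
      apply sepα x₁ x₂ ((j a * outRep j q₁)⁻¹ * (j b * outRep j q₂))
      rw [map_mul, map_inv, map_mul, map_mul, mul_assoc, ← h, ← mul_assoc, inv_mul_cancel,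
        one_mul]
    subst hx
    have h' : ι (j a * outRep j q₁) = ι (j b * outRep j q₂) := by
      rw [map_mul, map_mul]
      exact mul_right_cancel h
    have := outRep_unique j hj (hι h')
    exact ⟨rfl, this.1, this.2⟩
  -- separation of the family `β x * ι (g q)`
  have hsepβg : ∀ (x₁ x₂ : X) (q₁ q₂ : Γ ⧸ j.range) (m : Γ'),
      β x₁ * ι (outRep j q₁) = ι (j m) * β x₂ * ι (outRep j q₂) → x₁ = x₂ ∧ q₁ = q₂ := by
    intro x₁ x₂ q₁ q₂ m h
    have h1 : β x₁ * ι (outRep j q₁ * (outRep j q₂)⁻¹) = ι (j m) * β x₂ := by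
      rw [map_mul, map_inv, ← mul_assoc, h, mul_assoc, mul_inv_cancel, mul_one]
    obtain ⟨c, hc⟩ := hkey x₁ x₂ _ m h1
    have h2 : j 1 * outRep j q₁ = j c * outRep j q₂ := by
      rw [map_one, one_mul, hc, inv_mul_cancel_right]
    obtain ⟨hq, hc1⟩ := outRep_unique j hj h2
    subst hq
    refine ⟨?_, rfl⟩
    rw [mul_inv_cancel, map_one, mul_one] at h1
    exact sepβ x₁ x₂ m h1
  -- the rewriting of the product family
  have hprod : ∀ x q, β x * ι (outRep j q) * ι γ =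
      ι (j (lam q x)) * (β (τ q x) * ι (outRep j (σ q))) := by
    intro x q
    rw [mul_assoc, ← map_mul, hσκ q, map_mul, ← mul_assoc, hτl q x, mul_assoc]
  let Φ : X × (Γ ⧸ j.range) → X × (Γ ⧸ j.range) := fun p => (τ p.2 p.1, σ p.2)
  let Ψ : X × (Γ ⧸ j.range) → X × (Γ ⧸ j.range) := fun p => (Ψ₁ p.1 p.2, Ψ₂ p.1 p.2)
  have hΦinj : Function.Injective Φ := by
    rintro ⟨x₁, q₁⟩ ⟨x₂, q₂⟩ h
    simp only [Φ, Prod.mk.injEq] at h
    have e1 := hprod x₁ q₁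
    have e2 := hprod x₂ q₂
    rw [h.1, h.2] at e1
    have e3 : β x₁ * ι (outRep j q₁) =
        ι (j (lam q₁ x₁ * (lam q₂ x₂)⁻¹)) * β x₂ * ι (outRep j q₂) := by
      have e4 : β x₁ * ι (outRep j q₁) * ι γ =
          ι (j (lam q₁ x₁ * (lam q₂ x₂)⁻¹)) * β x₂ * ι (outRep j q₂) * ι γ := by
        rw [e1, mul_assoc (ι (j (lam q₁ x₁ * (lam q₂ x₂)⁻¹))),
          mul_assoc (ι (j (lam q₁ x₁ * (lam q₂ x₂)⁻¹))), e2, map_mul, map_mul, map_inv, map_inv,
          mul_assoc (ι (j (lam q₁ x₁))), inv_mul_cancel_left]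
      exact mul_right_cancel e4
    obtain ⟨hx, hq⟩ := hsepβg _ _ _ _ _ e3
    rw [hx, hq]
  have hΦ : Function.Bijective Φ := Finite.injective_iff_bijective.mp hΦinj
  have hΨinj : Function.Injective Ψ := by
    rintro ⟨x₁, q₁⟩ ⟨x₂, q₂⟩ h
    simp only [Ψ, Prod.mk.injEq] at h
    have e1 := hΨ x₁ q₁
    have e2 := hΨ x₂ q₂
    rw [h.1, h.2] at e1
    have e3 : β x₁ * ι (outRep j q₁) =
        ι (j (ν x₁ q₁ * (ν x₂ q₂)⁻¹)) * β x₂ * ι (outRep j q₂) := by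
      rw [e1, mul_assoc (ι (j (ν x₁ q₁ * (ν x₂ q₂)⁻¹))), e2, map_mul, map_mul, map_inv, map_inv]
      simp only [mul_assoc, inv_mul_cancel_left]
    obtain ⟨hx, hq⟩ := hsepβg _ _ _ _ _ e3
    rw [hx, hq]
  have hΨb : Function.Bijective Ψ := Finite.injective_iff_bijective.mp hΨinj
  -- the key identity
  have hkeyid : ∀ x q, lam q x * ν (τ q x) (σ q) = ν x q * μ (Ψ₁ x q) (Ψ₂ x q) := by
    intro x q
    have e1 : β x * ι (outRep j q) * ι γ =
        ι (j (lam q x * ν (τ q x) (σ q))) * ι (outRep j (Ψ₂ (τ q x) (σ q))) *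
          α (Ψ₁ (τ q x) (σ q)) := by
      rw [hprod, hΨ (τ q x) (σ q), map_mul, map_mul]
      simp only [mul_assoc]
    have e2 : β x * ι (outRep j q) * ι γ =
        ι (j (ν x q * μ (Ψ₁ x q) (Ψ₂ x q))) * ι (outRep j (τ' (Ψ₁ x q) (Ψ₂ x q))) *
          α (σ' (Ψ₁ x q)) := by
      rw [hΨ x q, mul_assoc, hσ'k (Ψ₁ x q), ← mul_assoc, mul_assoc (ι (j (ν x q))),
        ← map_mul ι, hτ'μ, map_mul, map_mul, map_mul]
      simp only [mul_assoc]
    exact (huniq _ _ _ _ _ _ (e1.symm.trans e2)).2.2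
  have hlam : ∀ p : X × (Γ ⧸ j.range),
      ψ (Additive.ofMul (lam p.2 p.1)) =
        ψ (Additive.ofMul (ν p.1 p.2)) + ψ (Additive.ofMul (μ (Ψ p).1 (Ψ p).2)) -
          ψ (Additive.ofMul (ν (Φ p).1 (Φ p).2)) := by
    rintro ⟨x, q⟩
    have := congrArg (fun t => ψ (Additive.ofMul t)) (hkeyid x q)
    simp only [ofMul_mul, map_add] at this
    rw [eq_sub_iff_add_eq]
    exact this
  -- the sums
  rw [hL1, hR1]
  simp only [hL2, hR2]
  rw [Finset.sum_comm]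
  rw [← Fintype.sum_prod_type' (f := fun x q => ψ (Additive.ofMul (lam q x))),
    ← Fintype.sum_prod_type' (f := fun x q => ψ (Additive.ofMul (μ x q)))]
  rw [Finset.sum_congr rfl (fun p _ => hlam p), Finset.sum_sub_distrib, Finset.sum_add_distrib]
  rw [hΦ.sum_comp (fun p : X × (Γ ⧸ j.range) => ψ (Additive.ofMul (ν p.1 p.2))),
    hΨb.sum_comp (fun p : X × (Γ ⧸ j.range) => ψ (Additive.ofMul (μ p.1 p.2)))]
  abel

end abstract

end Fermat.Agent.H85.J2
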