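/-
P-SS2 row 1053 SS2-J2 (helper85): the transfers along the two degeneracy homomorphisms
`Γ₀(N q) → Γ₀(N)` commute with the cohomological Hecke operators `T_ℓ`, `ℓ ∤ N q`.
Concrete part: the matrix computations.
-/
import Fermat.Agent.H85.J2.Abstract
import Fermat.Agent.H21.Coh.Hecke

set_option autoImplicit false
set_option linter.style.haveILetI false

open CongruenceSubgroup Matrix.SpecialLinearGroup
open scoped MatrixGroups OnePoint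
open P2MW.S_ModularForm_heckeT_slash_eq_self_of_mem_Gamma0.ModularForm.HeckeSlashInvariance
open Fermat.Agent.H21 Fermat.Agent.H63.LR

namespace Fermat.Agent.H85.J2

/-- An element of `SL(2, ℤ)` from its entries. -/
def mkSL (a b c d : ℤ) (h : a * d - b * c = 1) : SL(2, ℤ) :=
  ⟨!![a, b; c, d], by rw [Matrix.det_fin_two_of]; exact h⟩

theorem coe_mkSL (a b c d : ℤ) (h : a * d - b * c = 1) :
    ((mkSL a b c d h : SL(2, ℤ)) : Matrix (Fin 2) (Fin 2) ℤ) = !![a, b; c, d] := rfl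

@[simp] theorem mkSL_00 (a b c d : ℤ) (h : a * d - b * c = 1) : mkSL a b c d h 0 0 = a := rfl
@[simp] theorem mkSL_01 (a b c d : ℤ) (h : a * d - b * c = 1) : mkSL a b c d h 0 1 = b := rfl
@[simp] theorem mkSL_10 (a b c d : ℤ) (h : a * d - b * c = 1) : mkSL a b c d h 1 0 = c := rfl
@[simp] theorem mkSL_11 (a b c d : ℤ) (h : a * d - b * c = 1) : mkSL a b c d h 1 1 = d := rfl

/-- Comparison of the entries `(1, 0)` and `(0, 1)` in `U * γ = μ * U'` for upper triangular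
integral `U`, `U'`. -/
theorem upper_mul_eq {a b d a' b' d' : ℤ} (U U' : GL (Fin 2) ℝ)
    (hU : (U : Matrix (Fin 2) (Fin 2) ℝ) = !![(a : ℝ), (b : ℝ); 0, (d : ℝ)])
    (hU' : (U' : Matrix (Fin 2) (Fin 2) ℝ) = !![(a' : ℝ), (b' : ℝ); 0, (d' : ℝ)])
    (γ μ : SL(2, ℤ)) (e : U * mapGL ℝ γ = mapGL ℝ μ * U') :
    d * γ 1 0 = μ 1 0 * a' ∧ a * γ 0 1 + b * γ 1 1 = μ 0 0 * b' + μ 0 1 * d' := by
  have e' : ((U * mapGL ℝ γ : GL (Fin 2) ℝ) : Matrix (Fin 2) (Fin 2) ℝ) =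
      ((mapGL ℝ μ * U' : GL (Fin 2) ℝ) : Matrix (Fin 2) (Fin 2) ℝ) := congrArg Units.val e
  rw [Matrix.GeneralLinearGroup.coe_mul, Matrix.GeneralLinearGroup.coe_mul, hU, hU',
    mapGL_coe_matrix, mapGL_coe_matrix] at e'
  have h10 := congrFun (congrFun e' 1) 0
  have h01 := congrFun (congrFun e' 0) 1
  simp [Matrix.mul_apply, Fin.sum_univ_two] at h10 h01
  constructor
  · exact_mod_cast h10
  · exact_mod_cast h01

/-- The upper triangular shape of `heckeRep ℓ x`. -/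
theorem heckeRep_upper (ℓ : ℕ) [Fact ℓ.Prime] (x : OnePoint (ZMod ℓ)) :
    ∃ a b d : ℤ, ((heckeRep ℓ x : GL (Fin 2) ℝ) : Matrix (Fin 2) (Fin 2) ℝ) =
      !![(a : ℝ), (b : ℝ); 0, (d : ℝ)] ∧ (a = 1 ∨ a = ℓ) ∧ (d = 1 ∨ d = ℓ) := by
  have hℓ : ℓ ≠ 0 := (Fact.out : ℓ.Prime).ne_zero
  induction x using OnePoint.rec with
  | infty =>
    refine ⟨ℓ, 0, 1, ?_, Or.inr rfl, Or.inl rfl⟩
    rw [heckeRep_infty, ModularForm.val_heckeDiagMatrix hℓ]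
    simp
  | coe i =>
    refine ⟨1, i.val, ℓ, ?_, Or.inl rfl, Or.inr rfl⟩
    rw [heckeRep_coe, ModularForm.val_heckeMatrix hℓ]
    simp

theorem dvd_of_dvd_mul_of_one_or {ℓ M : ℕ} (hℓ : ℓ.Prime) (hℓM : ¬ ℓ ∣ M) {d c : ℤ}
    (hd : d = 1 ∨ d = ℓ) (h : (M : ℤ) ∣ d * c) : (M : ℤ) ∣ c := by
  rcases hd with rfl | rfl
  · simpa using h
  · have hcop : IsCoprime (M : ℤ) (ℓ : ℤ) := by
      rw [Nat.isCoprime_iff_coprime]
      exact (Nat.Coprime.symm ((Nat.Prime.coprime_iff_not_dvd hℓ).2 hℓM))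
    exact hcop.dvd_of_dvd_mul_left h

/-! ### The inclusion -/

theorem incl_key (N q ℓ : ℕ) [Fact ℓ.Prime] (hℓNq : ¬ ℓ ∣ N * q)
    (x₁ x₂ : OnePoint (ZMod ℓ)) (γ : Gamma0 N) (μ : Gamma0 (N * q))
    (e : heckeRep ℓ x₁ * gamma0ToGL N γ = gamma0ToGL N (incl N q μ) * heckeRep ℓ x₂) :
    γ ∈ (incl N q).range := by
  obtain ⟨a₁, b₁, d₁, h₁, -, hd₁⟩ := heckeRep_upper ℓ x₁
  obtain ⟨a₂, b₂, d₂, h₂, ha₂, -⟩ := heckeRep_upper ℓ x₂
  have h0 := (upper_mul_eq _ _ h₁ h₂ (γ : SL(2, ℤ)) (μ : SL(2, ℤ)) e).1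
  have hμ : ((N * q : ℕ) : ℤ) ∣ (μ : SL(2, ℤ)) 1 0 :=
    (ZMod.intCast_zmod_eq_zero_iff_dvd _ _).mp (Gamma0_mem.mp μ.2)
  have h1 : ((N * q : ℕ) : ℤ) ∣ d₁ * (γ : SL(2, ℤ)) 1 0 := by
    rw [h0]
    exact Dvd.dvd.mul_right hμ _
  have h2 := dvd_of_dvd_mul_of_one_or Fact.out hℓNq hd₁ h1
  refine ⟨⟨(γ : SL(2, ℤ)), Gamma0_mem.mpr ((ZMod.intCast_zmod_eq_zero_iff_dvd _ _).mpr h2)⟩, ?_⟩
  exact Subtype.ext rfl

/-- The transfer along the inclusion commutes with `T_ℓ`, `ℓ ∤ N q`. -/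
theorem push_incl_cohT (N q : ℕ) (ℓ : ℕ) (hℓ : ℓ.Prime) (hℓN : ¬ ℓ ∣ N) (hℓNq : ¬ ℓ ∣ N * q)
    (A : Type*) [AddCommGroup A] (ψ : Additive (Gamma0 (N * q)) →+ A) :
    pushHom (incl N q) A (cohT (N * q) ℓ hℓ hℓNq A ψ)
      = cohT N ℓ hℓ hℓN A (pushHom (incl N q) A ψ) := by
  classical
  haveI : Fact ℓ.Prime := ⟨hℓ⟩
  by_cases h : Function.Injective (incl N q) ∧ (incl N q).range.FiniteIndex
  · haveI := h.2
    letI : Fintype (Gamma0 N ⧸ (incl N q).range) := Subgroup.fintypeQuotientOfFiniteIndex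
    refine push_comm_abstract (gamma0ToGL N) (gamma0ToGL_injective N) (incl N q) h.1
      (heckeRep ℓ) (heckeRep ℓ) (rewritingT N ℓ hℓN).rw (rewritingT N ℓ hℓN).sep ?_ ?_ ?_ ?_
      (cohT N ℓ hℓ hℓN A) ?_ (cohT (N * q) ℓ hℓ hℓNq A) ?_ ψ
    · intro κ x
      exact (rewritingT (N * q) ℓ hℓNq).rw κ x
    · intro x y l e
      exact (rewritingT (N * q) ℓ hℓNq).sep x y l e
    · intro x
      exact ⟨1, x, by simp⟩
    · intro x₁ x₂ γ μ e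
      exact incl_key N q ℓ hℓNq x₁ x₂ γ μ e
    · intro φ γ σ k e
      exact cohT_apply_of_rewriting hℓ hℓN φ γ σ k e
    · intro ψ' κ τ l e
      exact cohT_apply_of_rewriting hℓ hℓNq ψ' κ τ l e
  · have h0 : ∀ ψ' : Additive (Gamma0 (N * q)) →+ A, pushHom (incl N q) A ψ' = 0 := by
      intro ψ'
      unfold pushHom
      rw [dif_neg h]
    rw [h0, h0, map_zero]

/-! ### The conjugation by `δ = diag(q, 1)` -/

/-- `δ = diag(q, 1)`. -/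
noncomputable def deltaGL (q : ℕ) : GL (Fin 2) ℝ := ModularForm.heckeDiagMatrix q

/-- The conjugated family `δ α_x δ⁻¹`. -/
noncomputable def betaRep (ℓ q : ℕ) (x : OnePoint (ZMod ℓ)) : GL (Fin 2) ℝ :=
  x.elim (ModularForm.heckeDiagMatrix ℓ) (fun i => ModularForm.heckeMatrix ℓ (q * i.val))

theorem betaRep_infty (ℓ q : ℕ) : betaRep ℓ q ∞ = ModularForm.heckeDiagMatrix ℓ := rfl

theorem betaRep_coe (ℓ q : ℕ) (i : ZMod ℓ) :
    betaRep ℓ q i = ModularForm.heckeMatrix ℓ (q * i.val) := rfl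

theorem delta_mul_heckeRep (ℓ q : ℕ) [Fact ℓ.Prime] (hq : q ≠ 0) (x : OnePoint (ZMod ℓ)) :
    deltaGL q * heckeRep ℓ x = betaRep ℓ q x * deltaGL q := by
  have hℓ : ℓ ≠ 0 := (Fact.out : ℓ.Prime).ne_zero
  apply Units.ext
  rw [Matrix.GeneralLinearGroup.coe_mul, Matrix.GeneralLinearGroup.coe_mul]
  induction x using OnePoint.rec with
  | infty =>
    rw [heckeRep_infty, betaRep_infty, deltaGL, ModularForm.val_heckeDiagMatrix hq,
      ModularForm.val_heckeDiagMatrix hℓ]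
    ext i j
    fin_cases i <;> fin_cases j <;> simp [Matrix.mul_apply, Fin.sum_univ_two, mul_comm]
  | coe i =>
    rw [heckeRep_coe, betaRep_coe, deltaGL, ModularForm.val_heckeDiagMatrix hq,
      ModularForm.val_heckeMatrix hℓ, ModularForm.val_heckeMatrix hℓ]
    ext i j
    fin_cases i <;> fin_cases j <;> simp [Matrix.mul_apply, Fin.sum_univ_two, mul_comm]

theorem conjD_apply_00 (N q : ℕ) (κ : Gamma0 (N * q)) :
    ((conjD N q κ : Gamma0 N) : SL(2, ℤ)) 0 0 = (κ : SL(2, ℤ)) 0 0 := rfl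

theorem conjD_apply_01 (N q : ℕ) (κ : Gamma0 (N * q)) :
    ((conjD N q κ : Gamma0 N) : SL(2, ℤ)) 0 1 = q * (κ : SL(2, ℤ)) 0 1 := rfl

theorem conjD_apply_10 (N q : ℕ) (κ : Gamma0 (N * q)) :
    ((conjD N q κ : Gamma0 N) : SL(2, ℤ)) 1 0 = (κ : SL(2, ℤ)) 1 0 / q := rfl

theorem conjD_apply_11 (N q : ℕ) (κ : Gamma0 (N * q)) :
    ((conjD N q κ : Gamma0 N) : SL(2, ℤ)) 1 1 = (κ : SL(2, ℤ)) 1 1 := rfl

theorem delta_mul_gamma0 (N q : ℕ) (hq : q ≠ 0) (κ : Gamma0 (N * q)) :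
    deltaGL q * gamma0ToGL (N * q) κ = gamma0ToGL N (conjD N q κ) * deltaGL q := by
  apply Units.ext
  rw [Matrix.GeneralLinearGroup.coe_mul, Matrix.GeneralLinearGroup.coe_mul, deltaGL,
    ModularForm.val_heckeDiagMatrix hq, gamma0ToGL_apply, gamma0ToGL_apply, mapGL_coe_matrix,
    mapGL_coe_matrix]
  have hdiv : (q : ℤ) ∣ (κ : SL(2, ℤ)) 1 0 := q_dvd_of_mem_Gamma0_mul κ.2
  have hc : ((((κ : SL(2, ℤ)) 1 0 / (q : ℤ) : ℤ) : ℝ)) * (q : ℝ)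
      = (((κ : SL(2, ℤ)) 1 0 : ℤ) : ℝ) := by
    exact_mod_cast Int.ediv_mul_cancel hdiv
  ext i j
  fin_cases i <;> fin_cases j <;>
    simp [Matrix.mul_apply, Fin.sum_univ_two, conjD_apply_00, conjD_apply_01, conjD_apply_10,
      conjD_apply_11, hc, mul_comm]

/-- Transport of a rewriting for `heckeRep` at level `N q` to `betaRep`. -/
theorem beta_of_alpha (N q ℓ : ℕ) [Fact ℓ.Prime] (hq : q ≠ 0) (κ l : Gamma0 (N * q))
    (x y : OnePoint (ZMod ℓ))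
    (h : heckeRep ℓ x * gamma0ToGL (N * q) κ = gamma0ToGL (N * q) l * heckeRep ℓ y) :
    betaRep ℓ q x * gamma0ToGL N (conjD N q κ) = gamma0ToGL N (conjD N q l) * betaRep ℓ q y := by
  apply mul_right_cancel (b := deltaGL q)
  calc betaRep ℓ q x * gamma0ToGL N (conjD N q κ) * deltaGL q
      = betaRep ℓ q x * (deltaGL q * gamma0ToGL (N * q) κ) := by
        rw [delta_mul_gamma0 N q hq, mul_assoc]
    _ = deltaGL q * (heckeRep ℓ x * gamma0ToGL (N * q) κ) := by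
        rw [← mul_assoc, ← delta_mul_heckeRep ℓ q hq, mul_assoc]
    _ = deltaGL q * (gamma0ToGL (N * q) l * heckeRep ℓ y) := by rw [h]
    _ = gamma0ToGL N (conjD N q l) * (deltaGL q * heckeRep ℓ y) := by
        rw [← mul_assoc, delta_mul_gamma0 N q hq, mul_assoc]
    _ = gamma0ToGL N (conjD N q l) * betaRep ℓ q y * deltaGL q := by
        rw [delta_mul_heckeRep ℓ q hq, mul_assoc]

/-- Transport of a rewriting for `betaRep` to `heckeRep` at level `N q`. -/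
theorem alpha_of_beta (N q ℓ : ℕ) [Fact ℓ.Prime] (hq : q ≠ 0) (κ l : Gamma0 (N * q))
    (x y : OnePoint (ZMod ℓ))
    (h : betaRep ℓ q x * gamma0ToGL N (conjD N q κ)
      = gamma0ToGL N (conjD N q l) * betaRep ℓ q y) :
    heckeRep ℓ x * gamma0ToGL (N * q) κ = gamma0ToGL (N * q) l * heckeRep ℓ y := by
  apply mul_left_cancel (a := deltaGL q)
  calc deltaGL q * (heckeRep ℓ x * gamma0ToGL (N * q) κ)
      = betaRep ℓ q x * (deltaGL q * gamma0ToGL (N * q) κ) := by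
        rw [← mul_assoc, delta_mul_heckeRep ℓ q hq, mul_assoc]
    _ = betaRep ℓ q x * gamma0ToGL N (conjD N q κ) * deltaGL q := by
        rw [delta_mul_gamma0 N q hq, mul_assoc]
    _ = gamma0ToGL N (conjD N q l) * betaRep ℓ q y * deltaGL q := by rw [h]
    _ = gamma0ToGL N (conjD N q l) * (deltaGL q * heckeRep ℓ y) := by
        rw [delta_mul_heckeRep ℓ q hq, mul_assoc]
    _ = deltaGL q * (gamma0ToGL (N * q) l * heckeRep ℓ y) := by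
        rw [← mul_assoc, ← delta_mul_gamma0 N q hq, mul_assoc]

theorem conjD_sepβ (N q ℓ : ℕ) [Fact ℓ.Prime] (hq : q ≠ 0) (hℓNq : ¬ ℓ ∣ N * q)
    (x y : OnePoint (ZMod ℓ)) (l : Gamma0 (N * q))
    (e : betaRep ℓ q x = gamma0ToGL N (conjD N q l) * betaRep ℓ q y) : x = y := by
  apply (rewritingT (N * q) ℓ hℓNq).sep x y l
  have h := alpha_of_beta N q ℓ hq 1 l x y (by rw [map_one, map_one, mul_one]; exact e)
  rw [map_one, mul_one] at h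
  exact h

theorem conjD_hβα (N q ℓ : ℕ) [Fact ℓ.Prime] (x : OnePoint (ZMod ℓ)) :
    ∃ (u : Gamma0 N) (x' : OnePoint (ZMod ℓ)),
      betaRep ℓ q x = gamma0ToGL N u * heckeRep ℓ x' := by
  have hℓ : ℓ ≠ 0 := (Fact.out : ℓ.Prime).ne_zero
  induction x using OnePoint.rec with
  | infty => exact ⟨1, ∞, by rw [map_one, one_mul]; rfl⟩
  | coe i =>
    have hu0 : mkSL 1 ((q * i.val / ℓ : ℕ) : ℤ) 0 1 (by ring) ∈ Gamma0 N := by
      rw [Gamma0_mem]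
      simp
    refine ⟨⟨mkSL 1 ((q * i.val / ℓ : ℕ) : ℤ) 0 1 (by ring), hu0⟩,
      (((q * i.val : ℕ) : ZMod ℓ) : OnePoint (ZMod ℓ)), ?_⟩
    rw [betaRep_coe, heckeRep_coe]
    apply Units.ext
    rw [Matrix.GeneralLinearGroup.coe_mul, ModularForm.val_heckeMatrix hℓ,
      ModularForm.val_heckeMatrix hℓ, gamma0ToGL_apply, mapGL_coe_matrix]
    have hn : (((((q * i.val : ℕ) : ZMod ℓ)).val : ℕ) : ℝ) + ((q * i.val / ℓ : ℕ) : ℝ) * (ℓ : ℝ)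
        = ((q * i.val : ℕ) : ℝ) := by
      rw [ZMod.val_natCast]
      exact_mod_cast Nat.mod_add_div' (q * i.val) ℓ
    ext a b
    fin_cases a <;> fin_cases b
    · simp [Matrix.mul_apply, Fin.sum_univ_two]
    · simp only [Matrix.mul_apply, Fin.sum_univ_two, Matrix.SpecialLinearGroup.map_apply_coe,
        RingHom.mapMatrix_apply, Matrix.map_apply, Fin.zero_eta, Fin.mk_one, Fin.isValue,
        Matrix.of_apply, Matrix.cons_val', Matrix.cons_val_zero, Matrix.cons_val_one,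
        Matrix.cons_val_fin_one, mkSL_00, mkSL_01, Int.coe_castRingHom, Int.cast_one, one_mul,
        Int.cast_natCast, algebraMap_int_eq]
      exact hn.symm
    · simp [Matrix.mul_apply, Fin.sum_univ_two]
    · simp [Matrix.mul_apply, Fin.sum_univ_two]

/-- The upper triangular shape of `betaRep ℓ q x`. -/
theorem betaRep_upper (ℓ q : ℕ) [Fact ℓ.Prime] (x : OnePoint (ZMod ℓ)) :
    ∃ a b d : ℤ, ((betaRep ℓ q x : GL (Fin 2) ℝ) : Matrix (Fin 2) (Fin 2) ℝ) =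
      !![(a : ℝ), (b : ℝ); 0, (d : ℝ)] ∧ (a = 1 ∨ a = ℓ) ∧ (q : ℤ) ∣ b := by
  have hℓ : ℓ ≠ 0 := (Fact.out : ℓ.Prime).ne_zero
  induction x using OnePoint.rec with
  | infty =>
    refine ⟨ℓ, 0, 1, ?_, Or.inr rfl, dvd_zero _⟩
    rw [betaRep_infty, ModularForm.val_heckeDiagMatrix hℓ]
    simp
  | coe i =>
    refine ⟨1, ((q * i.val : ℕ) : ℤ), ℓ, ?_, Or.inl rfl, ?_⟩
    · rw [betaRep_coe, ModularForm.val_heckeMatrix hℓ]
      simp
    · push_cast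
      exact dvd_mul_right _ _

theorem conjD_key (N q ℓ : ℕ) [Fact ℓ.Prime] (hq : q ≠ 0) (hℓNq : ¬ ℓ ∣ N * q)
    (x₁ x₂ : OnePoint (ZMod ℓ)) (γ : Gamma0 N) (μ : Gamma0 (N * q))
    (e : betaRep ℓ q x₁ * gamma0ToGL N γ = gamma0ToGL N (conjD N q μ) * betaRep ℓ q x₂) :
    γ ∈ (conjD N q).range := by
  obtain ⟨a₁, b₁, d₁, h₁, ha₁, hb₁⟩ := betaRep_upper ℓ q x₁
  obtain ⟨a₂, b₂, d₂, h₂, -, hb₂⟩ := betaRep_upper ℓ q x₂
  have h0 := (upper_mul_eq _ _ h₁ h₂ (γ : SL(2, ℤ)) ((conjD N q μ : Gamma0 N) : SL(2, ℤ)) e).2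
  rw [conjD_apply_01] at h0
  have h1 : (q : ℤ) ∣ a₁ * (γ : SL(2, ℤ)) 0 1 := by
    have e1 : a₁ * (γ : SL(2, ℤ)) 0 1 = ((conjD N q μ : Gamma0 N) : SL(2, ℤ)) 0 0 * b₂ +
        (q : ℤ) * (μ : SL(2, ℤ)) 0 1 * d₂ - b₁ * (γ : SL(2, ℤ)) 1 1 := by linarith
    rw [e1]
    exact dvd_sub (dvd_add (Dvd.dvd.mul_left hb₂ _) (by rw [mul_assoc]; exact dvd_mul_right _ _))
      (Dvd.dvd.mul_right hb₁ _)
  have hℓq : ¬ ℓ ∣ q := fun h => hℓNq (Dvd.dvd.mul_left h N)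
  have h2 : (q : ℤ) ∣ (γ : SL(2, ℤ)) 0 1 := dvd_of_dvd_mul_of_one_or Fact.out hℓq ha₁ h1
  have hN : (N : ℤ) ∣ (γ : SL(2, ℤ)) 1 0 :=
    (ZMod.intCast_zmod_eq_zero_iff_dvd _ _).mp (Gamma0_mem.mp γ.2)
  obtain ⟨b', hb'⟩ := h2
  have hq' : (q : ℤ) ≠ 0 := by exact_mod_cast hq
  have hdet : (γ : SL(2, ℤ)) 0 0 * (γ : SL(2, ℤ)) 1 1 - b' * ((q : ℤ) * (γ : SL(2, ℤ)) 1 0)
      = 1 := by
    have hd := Matrix.SpecialLinearGroup.det_coe (γ : SL(2, ℤ))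
    rw [Matrix.det_fin_two] at hd
    rw [hb'] at hd
    linear_combination hd
  have hγ0 : mkSL ((γ : SL(2, ℤ)) 0 0) b' ((q : ℤ) * (γ : SL(2, ℤ)) 1 0) ((γ : SL(2, ℤ)) 1 1)
      hdet ∈ Gamma0 (N * q) := by
    rw [Gamma0_mem]
    apply (ZMod.intCast_zmod_eq_zero_iff_dvd _ _).mpr
    rw [mkSL_10]
    push_cast
    rw [mul_comm (N : ℤ)]
    exact mul_dvd_mul_left _ hN
  refine ⟨⟨_, hγ0⟩, ?_⟩
  apply Subtype.ext
  apply Subtype.ext
  rw [conjD_coe]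
  ext i j
  fin_cases i <;> fin_cases j <;>
    simp [conjDMat, hb', Int.mul_ediv_cancel_left _ hq']

/-- The transfer along the conjugation `γ ↦ δ γ δ⁻¹` commutes with `T_ℓ`, `ℓ ∤ N q`. -/
theorem push_conjD_cohT (N q : ℕ) (hq : q ≠ 0) (ℓ : ℕ) (hℓ : ℓ.Prime) (hℓN : ¬ ℓ ∣ N)
    (hℓNq : ¬ ℓ ∣ N * q) (A : Type*) [AddCommGroup A] (ψ : Additive (Gamma0 (N * q)) →+ A) :
    pushHom (conjD N q) A (cohT (N * q) ℓ hℓ hℓNq A ψ)
      = cohT N ℓ hℓ hℓN A (pushHom (conjD N q) A ψ) := by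
  classical
  haveI : Fact ℓ.Prime := ⟨hℓ⟩
  by_cases h : Function.Injective (conjD N q) ∧ (conjD N q).range.FiniteIndex
  · haveI := h.2
    letI : Fintype (Gamma0 N ⧸ (conjD N q).range) := Subgroup.fintypeQuotientOfFiniteIndex
    refine push_comm_abstract (gamma0ToGL N) (gamma0ToGL_injective N) (conjD N q) h.1
      (heckeRep ℓ) (betaRep ℓ q) (rewritingT N ℓ hℓN).rw (rewritingT N ℓ hℓN).sep ?_ ?_ ?_ ?_
      (cohT N ℓ hℓ hℓN A) ?_ (cohT (N * q) ℓ hℓ hℓNq A) ?_ ψ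
    · intro κ x
      obtain ⟨y, l, hyl⟩ := (rewritingT (N * q) ℓ hℓNq).rw κ x
      exact ⟨y, l, beta_of_alpha N q ℓ hq κ l x y hyl⟩
    · intro x y l e
      exact conjD_sepβ N q ℓ hq hℓNq x y l e
    · intro x
      exact conjD_hβα N q ℓ x
    · intro x₁ x₂ γ μ e
      exact conjD_key N q ℓ hq hℓNq x₁ x₂ γ μ e
    · intro φ γ σ k e
      exact cohT_apply_of_rewriting hℓ hℓN φ γ σ k e
    · intro ψ' κ τ l e
      exact cohT_apply_of_rewriting hℓ hℓNq ψ' κ τ l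
        (fun x => alpha_of_beta N q ℓ hq κ (l x) x (τ x) (e x))
  · have h0 : ∀ ψ' : Additive (Gamma0 (N * q)) →+ A, pushHom (conjD N q) A ψ' = 0 := by
      intro ψ'
      unfold pushHom
      rw [dif_neg h]
    rw [h0, h0, map_zero]

end Fermat.Agent.H85.J2
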