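/-
P-SS2 row 1053 SS2-J2 PUSH-COHT (helper85): `PushCohTStatement`.

The transfers (corestrictions) along the two degeneracy homomorphisms
`incl, conjD : Γ₀(N q) → Γ₀(N)` commute with the cohomological Hecke operators `T_ℓ`,
`ℓ ∤ N q` (`q` prime, dividing `N` or not).
-/
import Fermat.Agent.H85.J2.Concrete
import Fermat.Agent.H52.SS.JInterfaces

set_option autoImplicit false

namespace Fermat.Agent.H85.J2

/-- **(J2) PUSH-COHT.** -/
theorem pushCohT : Fermat.Agent.H52.SS.PushCohTStatement := by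
  intro N q _ hq ℓ hℓ hℓN hℓNq A _ ψ
  exact ⟨push_incl_cohT N q ℓ hℓ hℓN hℓNq A ψ,
    push_conjD_cohT N q hq.ne_zero ℓ hℓ hℓN hℓNq A ψ⟩

end Fermat.Agent.H85.J2
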