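/-
P-SS2 row 1053 SS2-J2 (helper85): the transfer `pushHom` in terms of the `Quotient.out`
transversal and rewriting data.
-/
import Fermat.Agent.H63.LR.Maps

set_option autoImplicit false

namespace Fermat.Agent.H85.J2

open Fermat.Agent.H63.LR

variable {Γ Γ' : Type*} [Group Γ] [Group Γ']

/-- The right coset representatives `g q = (out q)⁻¹` of `j.range` in `Γ`. -/
noncomputable def outRep (j : Γ' →* Γ) (q : Γ ⧸ j.range) : Γ := (Quotient.out q : Γ)⁻¹

/-- Every element of `Γ` is `j κ * outRep q`. -/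
theorem exists_outRep (j : Γ' →* Γ) (γ : Γ) :
    ∃ (q : Γ ⧸ j.range) (κ : Γ'), γ = j κ * outRep j q := by
  have h : (Quotient.out (QuotientGroup.mk γ⁻¹ : Γ ⧸ j.range) : Γ)⁻¹ * γ⁻¹ ∈ j.range := by
    rw [← QuotientGroup.eq]
    exact QuotientGroup.out_eq' _
  have h' := j.range.inv_mem h
  obtain ⟨κ, hκ⟩ := h'
  refine ⟨QuotientGroup.mk γ⁻¹, κ, ?_⟩
  rw [hκ, outRep]
  group

/-- Uniqueness of the decomposition `j κ * outRep q`. -/
theorem outRep_unique (j : Γ' →* Γ) (hj : Function.Injective j) {q q' : Γ ⧸ j.range}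
    {κ κ' : Γ'} (e : j κ * outRep j q = j κ' * outRep j q') : q = q' ∧ κ = κ' := by
  have h1 : (Quotient.out q : Γ)⁻¹ * Quotient.out q' = j (κ⁻¹ * κ') := by
    have e' : (Quotient.out q : Γ)⁻¹ = (j κ)⁻¹ * (j κ' * (Quotient.out q' : Γ)⁻¹) := by
      have e0 := e
      simp only [outRep] at e0
      rw [← e0, inv_mul_cancel_left]
    rw [e', map_mul, map_inv]
    group
  have h2 : (QuotientGroup.mk (Quotient.out q : Γ) : Γ ⧸ j.range) =
      QuotientGroup.mk (Quotient.out q' : Γ) := by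
    rw [QuotientGroup.eq, h1]
    exact ⟨_, rfl⟩
  have hq : q = q' := by
    have a1 : (QuotientGroup.mk (Quotient.out q : Γ) : Γ ⧸ j.range) = q :=
      QuotientGroup.out_eq' q
    have a2 : (QuotientGroup.mk (Quotient.out q' : Γ) : Γ ⧸ j.range) = q' :=
      QuotientGroup.out_eq' q'
    rw [← a1, ← a2, h2]
  subst hq
  refine ⟨rfl, hj ?_⟩
  exact mul_right_cancel e

/-- The transfer formula for the `Quotient.out` transversal. -/
theorem pushHom_apply_out (j : Γ' →* Γ) (hj : Function.Injective j) [hfi : j.range.FiniteIndex]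
    [Fintype (Γ ⧸ j.range)] (A : Type*) [AddCommGroup A] (ψ : Additive Γ' →+ A) (γ : Γ)
    (σ : Γ ⧸ j.range → Γ ⧸ j.range) (κ : Γ ⧸ j.range → Γ')
    (e : ∀ q : Γ ⧸ j.range, outRep j q * γ = j (κ q) * outRep j (σ q)) :
    pushHom j A ψ (Additive.ofMul γ) = ∑ q, ψ (Additive.ofMul (κ q)) := by
  classical
  have hdef : pushHom j A ψ =
      MonoidHom.toAdditiveLeft (MonoidHom.transfer (onRange j hj A ψ)) := by
    unfold pushHom
    rw [dif_pos ⟨hj, hfi⟩]
  rw [hdef]
  let T : j.range.LeftTransversal :=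
    ⟨Set.range (Quotient.out : Γ ⧸ j.range → Γ),
      Subgroup.isComplement_range_left Quotient.out_eq'⟩
  have hT : ∀ q, ((T.2.leftQuotientEquiv q : T.1) : Γ) = Quotient.out q := fun q =>
    Subgroup.IsComplement.leftQuotientEquiv_apply Quotient.out_eq' q
  have hσ : ∀ q : Γ ⧸ j.range, γ⁻¹ • q = σ q := by
    intro q
    have e1 := e q
    simp only [outRep] at e1
    have e2 : γ⁻¹ * Quotient.out q = Quotient.out (σ q) * (j (κ q))⁻¹ := by
      have : (Quotient.out q : Γ)⁻¹ * γ = j (κ q) * (Quotient.out (σ q) : Γ)⁻¹ := e1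
      have h3 := congrArg (fun t => t⁻¹) this
      simp only [mul_inv_rev, inv_inv] at h3
      exact h3
    have a1 : (QuotientGroup.mk (Quotient.out q : Γ) : Γ ⧸ j.range) = q :=
      QuotientGroup.out_eq' q
    have a2 : (QuotientGroup.mk (Quotient.out (σ q) : Γ) : Γ ⧸ j.range) = σ q :=
      QuotientGroup.out_eq' (σ q)
    calc γ⁻¹ • q = γ⁻¹ • (QuotientGroup.mk (Quotient.out q : Γ) : Γ ⧸ j.range) := by rw [a1]
      _ = (QuotientGroup.mk (γ⁻¹ * Quotient.out q) : Γ ⧸ j.range) := rfl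
      _ = (QuotientGroup.mk (Quotient.out (σ q) * (j (κ q))⁻¹) : Γ ⧸ j.range) := by rw [e2]
      _ = (QuotientGroup.mk (Quotient.out (σ q) : Γ) : Γ ⧸ j.range) := by
          rw [QuotientGroup.eq]
          simp only [mul_inv_rev, inv_inv]
          rw [mul_assoc, inv_mul_cancel, mul_one]
          exact ⟨_, rfl⟩
      _ = σ q := a2
  show Multiplicative.toAdd (MonoidHom.transfer (onRange j hj A ψ) γ) = _
  rw [MonoidHom.transfer_def _ T]
  unfold Subgroup.leftTransversals.diff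
  simp only
  rw [toAdd_prod]
  refine Finset.sum_congr (by
    ext q
    simp only [Finset.mem_univ]) ?_
  intro q _
  have hval : (⟨((T.2.leftQuotientEquiv q : T.1) : Γ)⁻¹ *
      (((γ • T).2.leftQuotientEquiv q : (γ • T).1) : Γ), QuotientGroup.leftRel_apply.mp
        (Quotient.exact' ((T.2.leftQuotientEquiv.symm_apply_apply q).trans
          ((γ • T).2.leftQuotientEquiv.symm_apply_apply q).symm))⟩ : j.range)
      = ⟨j (κ q), ⟨κ q, rfl⟩⟩ := by
    apply Subtype.ext
    show ((T.2.leftQuotientEquiv q : T.1) : Γ)⁻¹ *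
      (((γ • T).2.leftQuotientEquiv q : (γ • T).1) : Γ) = j (κ q)
    rw [Subgroup.smul_apply_eq_smul_apply_inv_smul, hT, hT, hσ q, smul_eq_mul, ← mul_assoc]
    have := e q
    simp only [outRep] at this
    rw [this, inv_mul_cancel_right]
  rw [hval]
  show Multiplicative.toAdd (onRange j hj A ψ ⟨j (κ q), ⟨κ q, rfl⟩⟩) = _
  have hinv : (MonoidHom.ofInjective hj).symm ⟨j (κ q), ⟨κ q, rfl⟩⟩ = κ q := by
    apply (MonoidHom.ofInjective hj).injective
    rw [MulEquiv.apply_symm_apply]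
    rfl
  simp only [onRange, MonoidHom.coe_comp, Function.comp_apply, MulEquiv.coe_toMonoidHom, hinv]
  rfl

end Fermat.Agent.H85.J2
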